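import Fermat.Agent.S25.SLib.LHom

set_option autoImplicit false

universe u

open CategoryTheory Limits AlgebraicGeometry TopologicalSpace Opposite

namespace Fermat.Agent.S25.SLib

noncomputable section

variable {X : Scheme.{u}}

theorem presheaf_map_map_apply {V V' W : X.Opens} (f : V' ⟶ V) (g : W ⟶ V') (r : Γ(X, V)) :
    X.presheaf.map g.op (X.presheaf.map f.op r) = X.presheaf.map (g ≫ f).op r := by
  rw [← ConcreteCategory.comp_apply, ← Functor.map_comp]
  rfl

/-- Gluing data for sheaves of modules on `X`, in sectionwise form: modules `M i` (only their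
restrictions to `U i` matter) with transition maps over `U i ⊓ U j` satisfying the cocycle
condition. -/
structure ModGlueData (X : Scheme.{u}) where
  ι : Type u
  U : ι → X.Opens
  M : ι → X.Modules
  g : ∀ i j, LHom (M i) (M j) (U i ⊓ U j)
  g_self : ∀ (i : ι) (W : X.Opens) (h : W ≤ U i ⊓ U i), (g i i).app W h = 𝟙 _
  cocycle : ∀ (i j k : ι) (W : X.Opens) (hi : W ≤ U i) (hj : W ≤ U j) (hk : W ≤ U k),
    (g i j).app W (le_inf hi hj) ≫ (g j k).app W (le_inf hj hk) = (g i k).app W (le_inf hi hk)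

namespace ModGlueData

variable (D : ModGlueData X)

/-- Index of the components of a section over `V`: a chart index and a small open. -/
structure Idx (V : X.Opens) where
  i : D.ι
  W : X.Opens
  hW : W ≤ V
  hi : W ≤ D.U i

/-- Raw families. -/
abbrev Fam (V : X.Opens) : Type u := ∀ p : D.Idx V, Γ(D.M p.i, p.W)

/-- The compatibility conditions cutting out sections of the glued module. -/
def IsSec (V : X.Opens) (s : D.Fam V) : Prop :=
  (∀ (p : D.Idx V) (W' : X.Opens) (h : W' ≤ p.W),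
    (D.M p.i).presheaf.map (homOfLE h).op (s p) = s ⟨p.i, W', h.trans p.hW, h.trans p.hi⟩) ∧
  (∀ (i j : D.ι) (W : X.Opens) (hW : W ≤ V) (hi : W ≤ D.U i) (hj : W ≤ D.U j),
    (D.g i j).app W (le_inf hi hj) (s ⟨i, W, hW, hi⟩) = s ⟨j, W, hW, hj⟩)

/-- Sections of the glued module over `V`. -/
def secs (V : X.Opens) : AddSubgroup (D.Fam V) where
  carrier := {s | D.IsSec V s}
  zero_mem' := by
    refine ⟨fun p W' h => ?_, fun i j W hW hi hj => ?_⟩
    · simp
    · simp
  add_mem' := by
    intro a b ha hb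
    refine ⟨fun p W' h => ?_, fun i j W hW hi hj => ?_⟩
    · simp only [Pi.add_apply, map_add]
      rw [ha.1 p W' h, hb.1 p W' h]
    · simp only [Pi.add_apply, map_add]
      rw [ha.2 i j W hW hi hj, hb.2 i j W hW hi hj]
  neg_mem' := by
    intro a ha
    refine ⟨fun p W' h => ?_, fun i j W hW hi hj => ?_⟩
    · simp only [Pi.neg_apply, map_neg]
      rw [ha.1 p W' h]
    · simp only [Pi.neg_apply, map_neg]
      rw [ha.2 i j W hW hi hj]

/-- Restriction of families. -/
def resFam {V V' : X.Opens} (h : V' ≤ V) (s : D.Fam V) : D.Fam V' :=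
  fun p => s ⟨p.i, p.W, p.hW.trans h, p.hi⟩

theorem isSec_resFam {V V' : X.Opens} (h : V' ≤ V) {s : D.Fam V} (hs : D.IsSec V s) :
    D.IsSec V' (D.resFam h s) :=
  ⟨fun p W' h' => hs.1 ⟨p.i, p.W, p.hW.trans h, p.hi⟩ W' h',
    fun i j W hW hi hj => hs.2 i j W (hW.trans h) hi hj⟩

/-- The presheaf of abelian groups underlying the glued module. -/
def psh : X.Opensᵒᵖ ⥤ Ab where
  obj V := AddCommGrpCat.of (D.secs V.unop)
  map {_ _} f := AddCommGrpCat.ofHom
    { toFun := fun s => ⟨D.resFam (leOfHom f.unop) s.1, D.isSec_resFam _ s.2⟩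
      map_zero' := rfl
      map_add' := fun _ _ => rfl }
  map_id _ := rfl
  map_comp _ _ := rfl

/-- Scalar multiplication of families. -/
def smulFam {V : X.Opens} (r : Γ(X, V)) (s : D.Fam V) : D.Fam V :=
  fun p => (X.presheaf.map (homOfLE p.hW).op r) • s p

theorem isSec_smulFam {V : X.Opens} (r : Γ(X, V)) {s : D.Fam V} (hs : D.IsSec V s) :
    D.IsSec V (D.smulFam r s) := by
  refine ⟨fun p W' h => ?_, fun i j W hW hi hj => ?_⟩
  · unfold smulFam
    rw [Scheme.Modules.map_smul, hs.1 p W' h]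
    congr 1
    rw [← ConcreteCategory.comp_apply, ← Functor.map_comp]
    rfl
  · unfold smulFam
    rw [(D.g i j).map_smul, hs.2 i j W hW hi hj]

instance modSecs (V : X.Opens) : Module Γ(X, V) (D.secs V) where
  smul r s := ⟨D.smulFam r s.1, D.isSec_smulFam r s.2⟩
  one_smul s := Subtype.ext (funext fun p => by
    change (X.presheaf.map (homOfLE p.hW).op (1 : Γ(X, V))) • s.1 p = s.1 p
    rw [map_one, one_smul])
  mul_smul r r' s := Subtype.ext (funext fun p => by
    change (X.presheaf.map (homOfLE p.hW).op (r * r')) • s.1 p =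
      (X.presheaf.map (homOfLE p.hW).op r) • ((X.presheaf.map (homOfLE p.hW).op r') • s.1 p)
    rw [map_mul, mul_smul])
  smul_zero r := Subtype.ext (funext fun p => by
    change (X.presheaf.map (homOfLE p.hW).op r) • (0 : Γ(D.M p.i, p.W)) = 0
    rw [smul_zero])
  smul_add r s t := Subtype.ext (funext fun p => by
    change (X.presheaf.map (homOfLE p.hW).op r) • (s.1 p + t.1 p) =
      (X.presheaf.map (homOfLE p.hW).op r) • s.1 p + (X.presheaf.map (homOfLE p.hW).op r) • t.1 p
    rw [smul_add])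
  add_smul r r' s := Subtype.ext (funext fun p => by
    change (X.presheaf.map (homOfLE p.hW).op (r + r')) • s.1 p =
      (X.presheaf.map (homOfLE p.hW).op r) • s.1 p + (X.presheaf.map (homOfLE p.hW).op r') • s.1 p
    rw [map_add, add_smul])
  zero_smul s := Subtype.ext (funext fun p => by
    change (X.presheaf.map (homOfLE p.hW).op (0 : Γ(X, V))) • s.1 p = 0
    rw [map_zero, zero_smul])

theorem smul_val {V : X.Opens} (r : Γ(X, V)) (s : D.secs V) (p : D.Idx V) :
    (r • s).1 p = (X.presheaf.map (homOfLE p.hW).op r) • s.1 p := rfl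

/-- The presheaf of modules underlying the glued module. -/
def pshMod : PresheafOfModules X.ringCatSheaf.obj :=
  letI : ∀ V : X.Opensᵒᵖ, Module (X.ringCatSheaf.obj.obj V) (D.psh.obj V) :=
    fun V => D.modSecs V.unop
  PresheafOfModules.ofPresheaf D.psh (fun V V' f r m => by
    apply Subtype.ext
    funext p
    change (X.presheaf.map (homOfLE (p.hW.trans (leOfHom f.unop))).op r) •
        m.1 ⟨p.i, p.W, p.hW.trans (leOfHom f.unop), p.hi⟩ =
      (X.presheaf.map (homOfLE p.hW).op (X.presheaf.map f r)) •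
        m.1 ⟨p.i, p.W, p.hW.trans (leOfHom f.unop), p.hi⟩
    congr 1
    exact (presheaf_map_map_apply (X := X) f.unop (homOfLE p.hW) r).symm)

section sheaf

variable {A : Type u} (V : A → X.Opens) (sf : ∀ a, D.secs (V a))
  (hsf : ∀ (a b : A) (i : D.ι) (W : X.Opens) (ha : W ≤ V a) (hb : W ≤ V b) (hi : W ≤ D.U i),
    (sf a).1 ⟨i, W, ha, hi⟩ = (sf b).1 ⟨i, W, hb, hi⟩)

/-- The local pieces of the glued family. -/
def gluePiece (p : D.Idx (iSup V)) (a : A) : Γ(D.M p.i, p.W ⊓ V a) :=
  (sf a).1 ⟨p.i, p.W ⊓ V a, inf_le_right, inf_le_left.trans p.hi⟩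

include hsf in
theorem gluePiece_compat (p : D.Idx (iSup V)) :
    TopCat.Presheaf.IsCompatible (D.M p.i).presheaf (fun a => p.W ⊓ V a) (D.gluePiece V sf p) := by
  intro a b
  change (D.M p.i).presheaf.map (homOfLE _).op _ = (D.M p.i).presheaf.map (homOfLE _).op _
  unfold gluePiece
  rw [(sf a).2.1 ⟨p.i, p.W ⊓ V a, inf_le_right, inf_le_left.trans p.hi⟩ _ inf_le_left,
    (sf b).2.1 ⟨p.i, p.W ⊓ V b, inf_le_right, inf_le_left.trans p.hi⟩ _ inf_le_right]
  exact hsf a b p.i _ _ _ _

include hsf in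
theorem exists_glueFam (p : D.Idx (iSup V)) :
    ∃! y : Γ(D.M p.i, p.W), ∀ a, (D.M p.i).presheaf.map
      (homOfLE (inf_le_left : p.W ⊓ V a ≤ p.W)).op y = D.gluePiece V sf p a :=
  TopCat.Sheaf.existsUnique_gluing'
    (⟨(D.M p.i).presheaf, (D.M p.i).isSheaf⟩ : TopCat.Sheaf Ab X)
    (fun a => p.W ⊓ V a) p.W (fun a => homOfLE inf_le_left)
    (by rw [← inf_iSup_eq]; exact le_inf le_rfl p.hW) (D.gluePiece V sf p)
    (D.gluePiece_compat V sf hsf p)

/-- The glued family. -/
def glueFam : D.Fam (iSup V) := fun p => (D.exists_glueFam V sf hsf p).choose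

theorem glueFam_spec (p : D.Idx (iSup V)) (a : A) :
    (D.M p.i).presheaf.map (homOfLE (inf_le_left : p.W ⊓ V a ≤ p.W)).op (D.glueFam V sf hsf p) =
      D.gluePiece V sf p a :=
  (D.exists_glueFam V sf hsf p).choose_spec.1 a

theorem glueFam_unique (p : D.Idx (iSup V)) (y : Γ(D.M p.i, p.W))
    (hy : ∀ a, (D.M p.i).presheaf.map (homOfLE (inf_le_left : p.W ⊓ V a ≤ p.W)).op y =
      D.gluePiece V sf p a) : y = D.glueFam V sf hsf p :=
  (D.exists_glueFam V sf hsf p).unique hy (D.glueFam_spec V sf hsf p)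

theorem isSec_glueFam : D.IsSec (iSup V) (D.glueFam V sf hsf) := by
  refine ⟨fun p W' h => ?_, fun i j W hW hi hj => ?_⟩
  · apply D.glueFam_unique V sf hsf ⟨p.i, W', h.trans p.hW, h.trans p.hi⟩
    intro a
    have h1 : W' ⊓ V a ≤ p.W ⊓ V a := inf_le_inf_right _ h
    have e : (D.M p.i).presheaf.map (homOfLE (inf_le_left : W' ⊓ V a ≤ W')).op
        ((D.M p.i).presheaf.map (homOfLE h).op (D.glueFam V sf hsf p)) =
        (D.M p.i).presheaf.map (homOfLE h1).op
          ((D.M p.i).presheaf.map (homOfLE (inf_le_left : p.W ⊓ V a ≤ p.W)).op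
            (D.glueFam V sf hsf p)) := by
      simp only [← ConcreteCategory.comp_apply, ← Functor.map_comp]
      rfl
    rw [e, D.glueFam_spec V sf hsf p a]
    exact (sf a).2.1 ⟨p.i, p.W ⊓ V a, inf_le_right, inf_le_left.trans p.hi⟩ _ h1
  · apply D.glueFam_unique V sf hsf ⟨j, W, hW, hj⟩
    intro a
    have nat := (D.g i j).naturality_apply (V := W) (W := W ⊓ V a) (le_inf hi hj)
      (le_inf (inf_le_left.trans hi) (inf_le_left.trans hj)) inf_le_left
      (D.glueFam V sf hsf ⟨i, W, hW, hi⟩)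
    rw [← nat, D.glueFam_spec V sf hsf ⟨i, W, hW, hi⟩ a]
    exact (sf a).2.2 i j (W ⊓ V a) inf_le_right _ _

end sheaf

theorem isSheaf_psh : TopCat.Presheaf.IsSheaf D.psh := by
  rw [TopCat.Presheaf.isSheaf_iff_isSheafUniqueGluing]
  intro A V sf hsf
  have hsf' : ∀ (a b : A) (i : D.ι) (W : X.Opens) (ha : W ≤ V a) (hb : W ≤ V b)
      (hi : W ≤ D.U i), (sf a).1 ⟨i, W, ha, hi⟩ = (sf b).1 ⟨i, W, hb, hi⟩ := by
    intro a b i W ha hb hi
    have := congrArg (fun t : D.secs (V a ⊓ V b) => t.1 ⟨i, W, le_inf ha hb, hi⟩) (hsf a b)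
    exact this
  refine ⟨⟨D.glueFam V sf hsf', D.isSec_glueFam V sf hsf'⟩, ?_, ?_⟩
  · intro a
    apply Subtype.ext
    funext p
    symm
    apply D.glueFam_unique V sf hsf' ⟨p.i, p.W, p.hW.trans (le_iSup V a), p.hi⟩
    intro b
    rw [(sf a).2.1 p _ inf_le_left]
    exact hsf' a b p.i _ _ _ _
  · intro t ht
    apply Subtype.ext
    funext p
    apply D.glueFam_unique V sf hsf' p
    intro a
    rw [t.2.1 p _ inf_le_left]
    have := congrArg (fun r : D.secs (V a) =>
      r.1 ⟨p.i, p.W ⊓ V a, inf_le_right, inf_le_left.trans p.hi⟩) (ht a)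
    exact this

/-- The glued module. -/
def glued : X.Modules := ⟨D.pshMod, D.isSheaf_psh⟩

/-- Sections of the glued module are compatible families (definitionally). -/
def gluedSecEquiv (V : X.Opens) : Γ(D.glued, V) ≃+ D.secs V := AddEquiv.refl _

theorem glued_map_val {V V' : X.Opens} (h : V' ≤ V) (s : Γ(D.glued, V)) (p : D.Idx V') :
    (D.gluedSecEquiv V' (D.glued.presheaf.map (homOfLE h).op s)).1 p =
      (D.gluedSecEquiv V s).1 ⟨p.i, p.W, p.hW.trans h, p.hi⟩ := rfl

theorem glued_smul_val {V : X.Opens} (r : Γ(X, V)) (s : Γ(D.glued, V)) (p : D.Idx V) :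
    (D.gluedSecEquiv V (r • s)).1 p =
      (X.presheaf.map (homOfLE p.hW).op r) • (D.gluedSecEquiv V s).1 p := rfl

/-- The projection from the glued module to the `k`-th module, over `U k`. -/
def toLoc (k : D.ι) : LHom D.glued (D.M k) (D.U k) where
  app V hV := AddCommGrpCat.ofHom
    { toFun := fun s => (D.gluedSecEquiv V s).1 ⟨k, V, le_rfl, hV⟩
      map_zero' := rfl
      map_add' := fun _ _ => rfl }
  naturality V W hV hW h := by
    ext s
    exact ((D.gluedSecEquiv V s).2.1 ⟨k, V, le_rfl, hV⟩ W h).symm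
  map_smul V hV r s := by
    change (X.presheaf.map (homOfLE (le_refl V)).op r) • (D.gluedSecEquiv V s).1 ⟨k, V, le_rfl, hV⟩
      = r • (D.gluedSecEquiv V s).1 ⟨k, V, le_rfl, hV⟩
    congr 1
    have : (homOfLE (le_refl V)).op = 𝟙 (op V) := rfl
    rw [this]
    simp

theorem toLoc_app_apply (k : D.ι) (V : X.Opens) (hV : V ≤ D.U k) (s : Γ(D.glued, V)) :
    (D.toLoc k).app V hV s = (D.gluedSecEquiv V s).1 ⟨k, V, le_rfl, hV⟩ := rfl

/-- The family attached to a section of the `k`-th module over `V ≤ U k`. -/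
def ofLocFam (k : D.ι) (V : X.Opens) (hV : V ≤ D.U k) (t : Γ(D.M k, V)) : D.Fam V :=
  fun p => (D.g k p.i).app p.W (le_inf (p.hW.trans hV) p.hi)
    ((D.M k).presheaf.map (homOfLE p.hW).op t)

theorem isSec_ofLocFam (k : D.ι) (V : X.Opens) (hV : V ≤ D.U k) (t : Γ(D.M k, V)) :
    D.IsSec V (D.ofLocFam k V hV t) := by
  refine ⟨fun p W' h => ?_, fun i j W hW hi hj => ?_⟩
  · unfold ofLocFam
    have nat := (D.g k p.i).naturality_apply (V := p.W) (W := W') (le_inf (p.hW.trans hV) p.hi)
      (le_inf ((h.trans p.hW).trans hV) (h.trans p.hi)) h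
      ((D.M k).presheaf.map (homOfLE p.hW).op t)
    rw [← nat]
    congr 1
    simp only [← ConcreteCategory.comp_apply, ← Functor.map_comp]
    rfl
  · unfold ofLocFam
    have c := D.cocycle k i j W (hW.trans hV) hi hj
    have := congrArg (fun φ => φ ((D.M k).presheaf.map (homOfLE hW).op t)) c
    simpa using this

theorem ofLocFam_add (k : D.ι) (V : X.Opens) (hV : V ≤ D.U k) (a b : Γ(D.M k, V)) :
    D.ofLocFam k V hV (a + b) = D.ofLocFam k V hV a + D.ofLocFam k V hV b := by
  funext p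
  unfold ofLocFam
  rw [map_add, map_add]
  rfl

/-- The inclusion of the `k`-th module into the glued module, over `U k`. -/
def ofLoc (k : D.ι) : LHom (D.M k) D.glued (D.U k) where
  app V hV := AddCommGrpCat.ofHom
    (AddMonoidHom.mk' (fun t : Γ(D.M k, V) =>
      (D.gluedSecEquiv V).symm ⟨D.ofLocFam k V hV t, D.isSec_ofLocFam k V hV t⟩)
      (fun a b => Subtype.ext (D.ofLocFam_add k V hV a b)))
  naturality V W hV hW h := by
    ext t
    apply Subtype.ext
    funext p
    change (D.g k p.i).app p.W _ ((D.M k).presheaf.map (homOfLE p.hW).op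
      ((D.M k).presheaf.map (homOfLE h).op t)) =
      (D.g k p.i).app p.W _ ((D.M k).presheaf.map (homOfLE (p.hW.trans h)).op t)
    congr 1
    simp only [← ConcreteCategory.comp_apply, ← Functor.map_comp]
    rfl
  map_smul V hV r t := by
    apply Subtype.ext
    funext p
    change (D.g k p.i).app p.W _ ((D.M k).presheaf.map (homOfLE p.hW).op (r • t)) =
      (X.presheaf.map (homOfLE p.hW).op r) •
        (D.g k p.i).app p.W _ ((D.M k).presheaf.map (homOfLE p.hW).op t)
    rw [Scheme.Modules.map_smul, (D.g k p.i).map_smul]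

theorem ofLoc_app_val (k : D.ι) (V : X.Opens) (hV : V ≤ D.U k) (t : Γ(D.M k, V)) (p : D.Idx V) :
    (D.gluedSecEquiv V ((D.ofLoc k).app V hV t)).1 p =
      (D.g k p.i).app p.W (le_inf (p.hW.trans hV) p.hi)
        ((D.M k).presheaf.map (homOfLE p.hW).op t) := rfl

theorem ofLoc_toLoc (k : D.ι) : (D.ofLoc k).comp (D.toLoc k) = LHom.id (D.M k) (D.U k) := by
  apply LHom.ext
  intro V hV
  ext t
  change (D.g k k).app V _ ((D.M k).presheaf.map (homOfLE (le_refl V)).op t) = t
  rw [D.g_self k V]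
  have : (homOfLE (le_refl V)).op = 𝟙 (op V) := rfl
  rw [this]
  simp

theorem toLoc_ofLoc (k : D.ι) : (D.toLoc k).comp (D.ofLoc k) = LHom.id D.glued (D.U k) := by
  apply LHom.ext
  intro V hV
  ext s
  apply Subtype.ext
  funext p
  change (D.g k p.i).app p.W _ ((D.M k).presheaf.map (homOfLE p.hW).op
    ((D.gluedSecEquiv V s).1 ⟨k, V, le_rfl, hV⟩)) = (D.gluedSecEquiv V s).1 p
  rw [(D.gluedSecEquiv V s).2.1 ⟨k, V, le_rfl, hV⟩ p.W p.hW]
  exact (D.gluedSecEquiv V s).2.2 k p.i p.W p.hW (p.hW.trans hV) p.hi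

/-- Compatibility of the projections with the transition maps. -/
theorem toLoc_comp_g (i j : D.ι) :
    ((D.toLoc i).res (inf_le_left : D.U i ⊓ D.U j ≤ D.U i)).comp (D.g i j) =
      (D.toLoc j).res inf_le_right := by
  apply LHom.ext
  intro V hV
  ext s
  exact (D.gluedSecEquiv V s).2.2 i j V le_rfl (hV.trans inf_le_left) (hV.trans inf_le_right)

end ModGlueData

end

end Fermat.Agent.S25.SLib
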