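/-
S25 package SLIB -- `ObjCover.lean` (tasks P1, P2 of BOARD_S25_SLIB.md).  Author: helper4045.
Modules living on the pieces of a family of open immersions: restriction of a pushforward,
and gluing of such modules along a cocycle (through `ModGlueData`).  Mathlib-only.
-/
import Fermat.Agent.S25.SLib.ModGlue

set_option autoImplicit false

universe u

open CategoryTheory Limits AlgebraicGeometry TopologicalSpace Opposite

namespace Fermat.Agent.S25.SLib

noncomputable section

/-! ### P1: restriction of a pushforward along an open immersion -/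

/-- P1: restricting the pushforward along an open immersion gives the module back. -/
def restrictPushforwardIso {Y X : Scheme.{u}} (f : Y ⟶ X) [IsOpenImmersion f] (M : Y.Modules) :
    ((Scheme.Modules.pushforward f).obj M).restrict f ≅ M :=
  (Scheme.Modules.restrictFunctorAdjCounitIso f).app M

/-- `restrictPushforwardIso` is natural. -/
theorem restrictPushforwardIso_hom_naturality {Y X : Scheme.{u}} (f : Y ⟶ X) [IsOpenImmersion f]
    {M N : Y.Modules} (φ : M ⟶ N) :
    (Scheme.Modules.restrictFunctor f).map ((Scheme.Modules.pushforward f).map φ) ≫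
        (restrictPushforwardIso f N).hom = (restrictPushforwardIso f M).hom ≫ φ :=
  (Scheme.Modules.restrictFunctorAdjCounitIso f).hom.naturality φ

/-- On sections, `restrictPushforwardIso` is the transport along `f ⁻¹ᵁ (f ''ᵁ W) = W`. -/
theorem restrictPushforwardIso_hom_app {Y X : Scheme.{u}} (f : Y ⟶ X) [IsOpenImmersion f]
    (M : Y.Modules) (W : Y.Opens) :
    (restrictPushforwardIso f M).hom.app W =
      M.presheaf.map (eqToHom (f.preimage_image_eq W).symm).op :=
  Scheme.Modules.restrictAdjunction_counit_app_app f M W

/-- The pullback form of P1. -/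
def pullbackPushforwardIso {Y X : Scheme.{u}} (f : Y ⟶ X) [IsOpenImmersion f] (M : Y.Modules) :
    (Scheme.Modules.pullback f).obj ((Scheme.Modules.pushforward f).obj M) ≅ M :=
  (Scheme.Modules.restrictFunctorIsoPullback f).symm.app _ ≪≫ restrictPushforwardIso f M

/-! ### Isomorphisms from mutually inverse local morphisms -/

/-- Mutually inverse local morphisms over the range of an open immersion `f` give an
isomorphism of the restrictions along `f`. -/
def LHom.restrictIso {Y X : Scheme.{u}} (f : Y ⟶ X) [IsOpenImmersion f] {M N : X.Modules}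
    (s : LHom M N f.opensRange) (t : LHom N M f.opensRange)
    (hst : s.comp t = LHom.id M f.opensRange) (hts : t.comp s = LHom.id N f.opensRange) :
    M.restrict f ≅ N.restrict f where
  hom := LHom.toRestrict f s
  inv := LHom.toRestrict f t
  hom_inv_id := by rw [← LHom.toRestrict_comp, hst, LHom.toRestrict_id]
  inv_hom_id := by rw [← LHom.toRestrict_comp, hts, LHom.toRestrict_id]

/-- Mutually inverse local morphisms over the range of an open immersion `f` give an
isomorphism of the pullbacks along `f`. -/
def LHom.pullbackIso {Y X : Scheme.{u}} (f : Y ⟶ X) [IsOpenImmersion f] {M N : X.Modules}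
    (s : LHom M N f.opensRange) (t : LHom N M f.opensRange)
    (hst : s.comp t = LHom.id M f.opensRange) (hts : t.comp s = LHom.id N f.opensRange) :
    (Scheme.Modules.pullback f).obj M ≅ (Scheme.Modules.pullback f).obj N :=
  (Scheme.Modules.restrictFunctorIsoPullback f).symm.app M ≪≫ LHom.restrictIso f s t hst hts ≪≫
    (Scheme.Modules.restrictFunctorIsoPullback f).app N

/-! ### The glued module restricted to a piece -/

namespace ModGlueData

variable {X : Scheme.{u}} (D : ModGlueData X)

/-- The glued module restricted along an open immersion landing in `U k` is the restriction of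
the `k`-th module. -/
def gluedRestrictIso {Y : Scheme.{u}} (f : Y ⟶ X) [IsOpenImmersion f] (k : D.ι)
    (hf : f.opensRange ≤ D.U k) : D.glued.restrict f ≅ (D.M k).restrict f :=
  LHom.restrictIso f ((D.toLoc k).res hf) ((D.ofLoc k).res hf)
    (by rw [← LHom.res_comp, D.toLoc_ofLoc]; rfl) (by rw [← LHom.res_comp, D.ofLoc_toLoc]; rfl)

/-- The glued module pulled back along an open immersion landing in `U k` is the pullback of
the `k`-th module. -/
def gluedPullbackIso {Y : Scheme.{u}} (f : Y ⟶ X) [IsOpenImmersion f] (k : D.ι)
    (hf : f.opensRange ≤ D.U k) :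
    (Scheme.Modules.pullback f).obj D.glued ≅ (Scheme.Modules.pullback f).obj (D.M k) :=
  LHom.pullbackIso f ((D.toLoc k).res hf) ((D.ofLoc k).res hf)
    (by rw [← LHom.res_comp, D.toLoc_ofLoc]; rfl) (by rw [← LHom.res_comp, D.ofLoc_toLoc]; rfl)

end ModGlueData

/-! ### P2: gluing modules living on the pieces -/

/-- Gluing data on `X` from modules `M i` on the sources of open immersions `f i : Y i ⟶ X`
(the `i`-th module of the data is the pushforward of `M i`). -/
def ModGlueData.ofImmersions {X : Scheme.{u}} {ι : Type u} (Y : ι → Scheme.{u})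
    (f : ∀ i, Y i ⟶ X) [∀ i, IsOpenImmersion (f i)] (M : ∀ i, (Y i).Modules)
    (g : ∀ i j, LHom ((Scheme.Modules.pushforward (f i)).obj (M i))
      ((Scheme.Modules.pushforward (f j)).obj (M j)) ((f i).opensRange ⊓ (f j).opensRange))
    (g_self : ∀ i, g i i = (LHom.id _ _).res inf_le_left)
    (cocycle : ∀ i j k,
      ((g i j).res (le_inf (inf_le_left.trans inf_le_left) (inf_le_left.trans inf_le_right) :
          (f i).opensRange ⊓ (f j).opensRange ⊓ (f k).opensRange ≤ _)).comp
        ((g j k).res (le_inf (inf_le_left.trans inf_le_right) inf_le_right)) =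
      (g i k).res (le_inf (inf_le_left.trans inf_le_left) inf_le_right)) : ModGlueData X where
  ι := ι
  U i := (f i).opensRange
  M i := (Scheme.Modules.pushforward (f i)).obj (M i)
  g := g
  g_self i W h := by rw [g_self i]; rfl
  cocycle i j k W hi hj hk :=
    congrArg (fun s => s.app W (le_inf (le_inf hi hj) hk)) (cocycle i j k)

/-- The module glued from modules on the pieces restricts to the given modules. -/
def ModGlueData.ofImmersionsRestrictIso {X : Scheme.{u}} {ι : Type u} (Y : ι → Scheme.{u})
    (f : ∀ i, Y i ⟶ X) [∀ i, IsOpenImmersion (f i)] (M : ∀ i, (Y i).Modules)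
    (g : ∀ i j, LHom ((Scheme.Modules.pushforward (f i)).obj (M i))
      ((Scheme.Modules.pushforward (f j)).obj (M j)) ((f i).opensRange ⊓ (f j).opensRange))
    (g_self : ∀ i, g i i = (LHom.id _ _).res inf_le_left)
    (cocycle : ∀ i j k,
      ((g i j).res (le_inf (inf_le_left.trans inf_le_left) (inf_le_left.trans inf_le_right) :
          (f i).opensRange ⊓ (f j).opensRange ⊓ (f k).opensRange ≤ _)).comp
        ((g j k).res (le_inf (inf_le_left.trans inf_le_right) inf_le_right)) =
      (g i k).res (le_inf (inf_le_left.trans inf_le_left) inf_le_right)) (i : ι) :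
    (ModGlueData.ofImmersions Y f M g g_self cocycle).glued.restrict (f i) ≅ M i :=
  (ModGlueData.ofImmersions Y f M g g_self cocycle).gluedRestrictIso (f i) i le_rfl ≪≫
    restrictPushforwardIso (f i) (M i)

/-- The module glued from modules on the pieces pulls back to the given modules. -/
def ModGlueData.ofImmersionsPullbackIso {X : Scheme.{u}} {ι : Type u} (Y : ι → Scheme.{u})
    (f : ∀ i, Y i ⟶ X) [∀ i, IsOpenImmersion (f i)] (M : ∀ i, (Y i).Modules)
    (g : ∀ i j, LHom ((Scheme.Modules.pushforward (f i)).obj (M i))
      ((Scheme.Modules.pushforward (f j)).obj (M j)) ((f i).opensRange ⊓ (f j).opensRange))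
    (g_self : ∀ i, g i i = (LHom.id _ _).res inf_le_left)
    (cocycle : ∀ i j k,
      ((g i j).res (le_inf (inf_le_left.trans inf_le_left) (inf_le_left.trans inf_le_right) :
          (f i).opensRange ⊓ (f j).opensRange ⊓ (f k).opensRange ≤ _)).comp
        ((g j k).res (le_inf (inf_le_left.trans inf_le_right) inf_le_right)) =
      (g i k).res (le_inf (inf_le_left.trans inf_le_left) inf_le_right)) (i : ι) :
    (Scheme.Modules.pullback (f i)).obj
      (ModGlueData.ofImmersions Y f M g g_self cocycle).glued ≅ M i :=
  (Scheme.Modules.restrictFunctorIsoPullback (f i)).symm.app _ ≪≫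
    ModGlueData.ofImmersionsRestrictIso Y f M g g_self cocycle i

/-- P2: modules on the pieces of a cover by open immersions glue along a cocycle. -/
theorem exists_glued_of_immersions {X : Scheme.{u}} {ι : Type u} (Y : ι → Scheme.{u})
    (f : ∀ i, Y i ⟶ X) [∀ i, IsOpenImmersion (f i)] (M : ∀ i, (Y i).Modules)
    (g : ∀ i j, LHom ((Scheme.Modules.pushforward (f i)).obj (M i))
      ((Scheme.Modules.pushforward (f j)).obj (M j)) ((f i).opensRange ⊓ (f j).opensRange))
    (g_self : ∀ i, g i i = (LHom.id _ _).res inf_le_left)
    (cocycle : ∀ i j k,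
      ((g i j).res (le_inf (inf_le_left.trans inf_le_left) (inf_le_left.trans inf_le_right) :
          (f i).opensRange ⊓ (f j).opensRange ⊓ (f k).opensRange ≤ _)).comp
        ((g j k).res (le_inf (inf_le_left.trans inf_le_right) inf_le_right)) =
      (g i k).res (le_inf (inf_le_left.trans inf_le_left) inf_le_right)) :
    ∃ (N : X.Modules) (e : ∀ i, LHom N ((Scheme.Modules.pushforward (f i)).obj (M i))
        (f i).opensRange) (e' : ∀ i, LHom ((Scheme.Modules.pushforward (f i)).obj (M i)) N
        (f i).opensRange),
      (∀ i, (e i).comp (e' i) = LHom.id _ _) ∧ (∀ i, (e' i).comp (e i) = LHom.id _ _) ∧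
      (∀ i j, ((e i).res inf_le_left).comp (g i j) = (e j).res inf_le_right) ∧
      ∀ i, Nonempty ((Scheme.Modules.pullback (f i)).obj N ≅ M i) :=
  ⟨(ModGlueData.ofImmersions Y f M g g_self cocycle).glued,
    (ModGlueData.ofImmersions Y f M g g_self cocycle).toLoc,
    (ModGlueData.ofImmersions Y f M g g_self cocycle).ofLoc,
    (ModGlueData.ofImmersions Y f M g g_self cocycle).toLoc_ofLoc,
    (ModGlueData.ofImmersions Y f M g g_self cocycle).ofLoc_toLoc,
    (ModGlueData.ofImmersions Y f M g g_self cocycle).toLoc_comp_g,
    fun i => ⟨ModGlueData.ofImmersionsPullbackIso Y f M g g_self cocycle i⟩⟩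

end

end Fermat.Agent.S25.SLib
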