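/-
S25 SLib: isomorphisms and invertibility of sheaves of modules are local.
(P3, P4 of BOARD_S25_SLIB.)  Author: helper2830.  Mathlib + Prelude definition of `IsInvertible`.
-/
import Fermat.Agent.S25.SLib.ObjCover
import Fermat.Prelude.Def_AlgebraicGeometry_RelativePicardFunctor

set_option autoImplicit false

universe u

open CategoryTheory Limits AlgebraicGeometry TopologicalSpace Opposite

namespace Fermat.Agent.S25.SLib

noncomputable section

variable {X : Scheme.{u}}

/-- Local morphisms over `⊤` agreeing on a cover agree. -/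
theorem LHom.ext_of_cover_top {M N : X.Modules} {ι : Type*} (U : ι → X.Opens)
    (hU : ⨆ i, U i = ⊤) {a b : LHom M N ⊤}
    (h : ∀ i, a.res (le_top : U i ≤ ⊤) = b.res (le_top : U i ≤ ⊤)) : a = b := by
  have h2 : a.res (le_top : ⨆ i, U i ≤ ⊤) = b.res (le_top : ⨆ i, U i ≤ ⊤) :=
    LHom.ext_of_cover U (fun i => by simpa using h i)
  have := congrArg (fun r : LHom M N (⨆ i, U i) => r.res (hU.ge : (⊤ : X.Opens) ≤ ⨆ i, U i)) h2
  simpa using this

/-- A two-sided inverse of a local morphism is unique. -/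
theorem LHom.inv_unique {M N : X.Modules} {U : X.Opens} (p : LHom M N U) (a b : LHom N M U)
    (hpa : p.comp a = LHom.id M U) (hbp : b.comp p = LHom.id N U) : a = b := by
  calc a = (LHom.id N U).comp a := (LHom.id_comp a).symm
    _ = (b.comp p).comp a := by rw [hbp]
    _ = b.comp (p.comp a) := LHom.comp_assoc _ _ _
    _ = b := by rw [hpa, LHom.comp_id]

/-- P3': mutually inverse local morphisms over `⊤` give an isomorphism. -/
def isoOfLHom {M N : X.Modules} (s : LHom M N ⊤) (t : LHom N M ⊤)
    (hst : s.comp t = LHom.id M ⊤) (hts : t.comp s = LHom.id N ⊤) : M ≅ N where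
  hom := LHom.toHom s
  inv := LHom.toHom t
  hom_inv_id := by rw [← LHom.toHom_comp, hst, LHom.toHom_id]
  inv_hom_id := by rw [← LHom.toHom_comp, hts, LHom.toHom_id]

@[simp] theorem isoOfLHom_hom {M N : X.Modules} (s : LHom M N ⊤) (t : LHom N M ⊤)
    (hst : s.comp t = LHom.id M ⊤) (hts : t.comp s = LHom.id N ⊤) :
    (isoOfLHom s t hst hts).hom = LHom.toHom s := rfl

/-- Local morphisms `s i` over a cover with local inverses `t i`, compatible on overlaps, glue
to an isomorphism (the inverses are automatically compatible). -/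
theorem exists_iso_of_cover {M N : X.Modules} {ι : Type*} (U : ι → X.Opens)
    (hU : ⨆ i, U i = ⊤) (s : ∀ i, LHom M N (U i)) (t : ∀ i, LHom N M (U i))
    (compat : ∀ i j, (s i).res (inf_le_left : U i ⊓ U j ≤ U i) =
      (s j).res (inf_le_right : U i ⊓ U j ≤ U j))
    (hst : ∀ i, (s i).comp (t i) = LHom.id M (U i))
    (hts : ∀ i, (t i).comp (s i) = LHom.id N (U i)) :
    ∃ e : M ≅ N, ∀ i, LHom.ofHom e.hom (U i) = s i := by
  have compat' : ∀ i j, (t i).res (inf_le_left : U i ⊓ U j ≤ U i) =
      (t j).res (inf_le_right : U i ⊓ U j ≤ U j) := by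
    intro i j
    apply LHom.inv_unique ((s i).res inf_le_left)
    · rw [← LHom.res_comp, hst, LHom.res_id]
    · rw [compat i j, ← LHom.res_comp, hts, LHom.res_id]
  let S : LHom M N ⊤ := (LHom.glue U s compat).res hU.ge
  let T : LHom N M ⊤ := (LHom.glue U t compat').res hU.ge
  have hS : ∀ i, S.res (le_top : U i ≤ ⊤) = s i := fun i => by
    have := LHom.glue_res U s compat i
    simpa [S] using this
  have hT : ∀ i, T.res (le_top : U i ≤ ⊤) = t i := fun i => by
    have := LHom.glue_res U t compat' i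
    simpa [T] using this
  have hST : S.comp T = LHom.id M ⊤ := by
    apply LHom.ext_of_cover_top U hU
    intro i
    rw [LHom.res_comp, hS, hT, hst, LHom.res_id]
  have hTS : T.comp S = LHom.id N ⊤ := by
    apply LHom.ext_of_cover_top U hU
    intro i
    rw [LHom.res_comp, hS, hT, hts, LHom.res_id]
  refine ⟨isoOfLHom S T hST hTS, fun i => ?_⟩
  rw [isoOfLHom_hom, ← hS i]
  have : LHom.ofHom (LHom.toHom S) ⊤ = S := LHom.ofHom_toHom S
  rw [← LHom.ofHom_res (LHom.toHom S) (le_top : U i ≤ ⊤), this]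

/-- P3: being an isomorphism is local (sections form). -/
theorem isIso_of_cover {M N : X.Modules} (φ : M ⟶ N) {ι : Type*}
    (U : ι → X.Opens) (hU : ⨆ i, U i = ⊤)
    (h : ∀ i, ∃ t : LHom N M (U i), (LHom.ofHom φ (U i)).comp t = LHom.id M (U i) ∧
      t.comp (LHom.ofHom φ (U i)) = LHom.id N (U i)) : IsIso φ := by
  choose t h1 h2 using h
  obtain ⟨e, he⟩ := exists_iso_of_cover U hU (fun i => LHom.ofHom φ (U i)) t
    (fun i j => by simp) h1 h2
  have : e.hom = φ := LHom.hom_ext_of_cover U hU he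
  rw [← this]
  infer_instance

/-- Being an isomorphism is local (restriction form). -/
theorem isIso_of_isIso_restrict {M N : X.Modules} (φ : M ⟶ N) {ι : Type*}
    (Y : ι → Scheme.{u}) (f : ∀ i, Y i ⟶ X) [∀ i, IsOpenImmersion (f i)]
    (hf : ⨆ i, (f i).opensRange = ⊤)
    (h : ∀ i, IsIso ((Scheme.Modules.restrictFunctor (f i)).map φ)) : IsIso φ := by
  apply isIso_of_cover φ (fun i => (f i).opensRange) hf
  intro i
  haveI := h i
  have e1 : (Scheme.Modules.restrictFunctor (f i)).map φ =
      LHom.toRestrict (f i) (LHom.ofHom φ (f i).opensRange) := (LHom.toRestrict_ofHom (f i) φ).symm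
  refine ⟨LHom.ofRestrict (f i) (inv ((Scheme.Modules.restrictFunctor (f i)).map φ)), ?_, ?_⟩
  · apply (LHom.equivRestrict (f i)).injective
    change LHom.toRestrict (f i) _ = LHom.toRestrict (f i) _
    rw [LHom.toRestrict_comp, LHom.toRestrict_id, LHom.toRestrict_ofRestrict, ← e1]
    exact IsIso.hom_inv_id _
  · apply (LHom.equivRestrict (f i)).injective
    change LHom.toRestrict (f i) _ = LHom.toRestrict (f i) _
    rw [LHom.toRestrict_comp, LHom.toRestrict_id, LHom.toRestrict_ofRestrict, ← e1]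
    exact IsIso.inv_hom_id _

/-- Being an isomorphism is local (pullback form). -/
theorem isIso_of_isIso_pullback {M N : X.Modules} (φ : M ⟶ N) {ι : Type*}
    (Y : ι → Scheme.{u}) (f : ∀ i, Y i ⟶ X) [∀ i, IsOpenImmersion (f i)]
    (hf : ⨆ i, (f i).opensRange = ⊤)
    (h : ∀ i, IsIso ((Scheme.Modules.pullback (f i)).map φ)) : IsIso φ := by
  apply isIso_of_isIso_restrict φ Y f hf
  intro i
  haveI := h i
  exact (NatIso.isIso_map_iff (Scheme.Modules.restrictFunctorIsoPullback (f i)) φ).mpr inferInstance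

/-! ### Invertibility is local -/

/-- P4a: invertibility (Prelude) is invariant under isomorphism. -/
theorem isInvertible_of_iso {M N : X.Modules} (e : M ≅ N)
    (hM : Scheme.Modules.IsInvertible M) : Scheme.Modules.IsInvertible N := by
  refine ⟨fun x => ?_⟩
  obtain ⟨U, hxU, ⟨i⟩⟩ := hM.1 x
  exact ⟨U, hxU, ⟨(Scheme.Modules.pullback U.ι).mapIso e.symm ≪≫ i⟩⟩

/-- A module whose pullback along an open immersion `g` is trivial is trivial on the range of
`g`. -/
theorem nonempty_pullback_opensRange_iso_unit (M : X.Modules) {Z : Scheme.{u}} (g : Z ⟶ X)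
    [IsOpenImmersion g]
    (h : Nonempty ((Scheme.Modules.pullback g).obj M ≅ SheafOfModules.unit Z.ringCatSheaf)) :
    Nonempty ((Scheme.Modules.pullback g.opensRange.ι).obj M ≅
      SheafOfModules.unit g.opensRange.toScheme.ringCatSheaf) := by
  obtain ⟨i⟩ := h
  have hfact : g.opensRange.ι = g.isoOpensRange.inv ≫ g := by
    rw [Iso.eq_inv_comp]
    exact Scheme.Hom.isoOpensRange_hom_ι g
  exact ⟨(Scheme.Modules.pullbackCongr hfact).app M ≪≫
    ((Scheme.Modules.pullbackComp _ _).app M).symm ≪≫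
    (Scheme.Modules.pullback g.isoOpensRange.inv).mapIso i ≪≫
    Scheme.Modules.pullbackUnitIso _⟩

/-- P4c: invertibility is local (open immersion form). -/
theorem isInvertible_of_immersions (M : X.Modules) {ι : Type*}
    (Y : ι → Scheme.{u}) (f : ∀ i, Y i ⟶ X) [∀ i, IsOpenImmersion (f i)]
    (hf : ∀ x : X, ∃ i, x ∈ (f i).opensRange)
    (h : ∀ i, Scheme.Modules.IsInvertible ((Scheme.Modules.pullback (f i)).obj M)) :
    Scheme.Modules.IsInvertible M := by
  refine ⟨fun x => ?_⟩
  obtain ⟨i, y, rfl⟩ := hf x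
  obtain ⟨U', hyU', ⟨e⟩⟩ := (h i).1 y
  let g : U'.toScheme ⟶ X := U'.ι ≫ f i
  have e' : (Scheme.Modules.pullback g).obj M ≅ SheafOfModules.unit U'.toScheme.ringCatSheaf :=
    ((Scheme.Modules.pullbackComp U'.ι (f i)).app M).symm ≪≫ e
  refine ⟨g.opensRange, ?_, nonempty_pullback_opensRange_iso_unit M g ⟨e'⟩⟩
  exact ⟨⟨y, hyU'⟩, rfl⟩

/-- P4b: invertibility is local (open cover form). -/
theorem isInvertible_of_cover (M : X.Modules) {ι : Type*} (U : ι → X.Opens)
    (hU : ⨆ i, U i = ⊤)
    (h : ∀ i, Scheme.Modules.IsInvertible ((Scheme.Modules.pullback (U i).ι).obj M)) :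
    Scheme.Modules.IsInvertible M := by
  apply isInvertible_of_immersions M (fun i => (U i).toScheme) (fun i => (U i).ι) _ h
  intro x
  have hx : x ∈ ⨆ i, U i := by rw [hU]; trivial
  obtain ⟨i, hi⟩ := Opens.mem_iSup.mp hx
  exact ⟨i, by simpa using hi⟩

/-- Invertibility passes to the restriction along an open immersion. -/
theorem isInvertible_restrict {M : X.Modules} (hM : Scheme.Modules.IsInvertible M)
    {Y : Scheme.{u}} (f : Y ⟶ X) [IsOpenImmersion f] :
    Scheme.Modules.IsInvertible (M.restrict f) :=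
  isInvertible_of_iso ((Scheme.Modules.restrictFunctorIsoPullback f).symm.app M) (hM.pullback f)

/-- A module glued from invertible modules is invertible. -/
theorem isInvertible_of_lhom_iso (M : X.Modules) {ι : Type*} (U : ι → X.Opens)
    (hU : ⨆ i, U i = ⊤) (L : ι → X.Modules)
    (hL : ∀ i, Scheme.Modules.IsInvertible (L i))
    (s : ∀ i, LHom M (L i) (U i)) (t : ∀ i, LHom (L i) M (U i))
    (hst : ∀ i, (s i).comp (t i) = LHom.id M (U i))
    (hts : ∀ i, (t i).comp (s i) = LHom.id (L i) (U i)) :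
    Scheme.Modules.IsInvertible M := by
  apply isInvertible_of_cover M U hU
  intro i
  have hr : (U i).ι.opensRange = U i := Scheme.Opens.opensRange_ι (U i)
  have e : (Scheme.Modules.pullback (U i).ι).obj M ≅ (Scheme.Modules.pullback (U i).ι).obj (L i) :=
    LHom.pullbackIso (U i).ι ((s i).res hr.le) ((t i).res hr.le)
      (by rw [← LHom.res_comp, hst, LHom.res_id]) (by rw [← LHom.res_comp, hts, LHom.res_id])
  exact isInvertible_of_iso e.symm ((hL i).pullback _)

end

end Fermat.Agent.S25.SLib
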