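import Mathlib

set_option autoImplicit false

universe u

open CategoryTheory Limits AlgebraicGeometry TopologicalSpace Opposite

namespace Fermat.Agent.S25.SLib

noncomputable section

variable {X : Scheme.{u}}

/-- A morphism of sheaves of modules "over the open `U`", given sectionwise: compatible
additive maps `Γ(M, V) → Γ(N, V)` for all opens `V ≤ U`, linear over `Γ(X, V)`. -/
structure LHom (M N : X.Modules) (U : X.Opens) where
  app : ∀ V : X.Opens, V ≤ U → (Γ(M, V) ⟶ Γ(N, V))
  naturality : ∀ (V W : X.Opens) (hV : V ≤ U) (hW : W ≤ U) (h : W ≤ V),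
    M.presheaf.map (homOfLE h).op ≫ app W hW = app V hV ≫ N.presheaf.map (homOfLE h).op
  map_smul : ∀ (V : X.Opens) (hV : V ≤ U) (r : Γ(X, V)) (x : Γ(M, V)),
    app V hV (r • x) = r • app V hV x

namespace LHom

variable {M N K : X.Modules} {U V : X.Opens}

@[ext]
theorem ext {s t : LHom M N U} (h : ∀ (V : X.Opens) (hV : V ≤ U), s.app V hV = t.app V hV) :
    s = t := by
  cases s; cases t
  congr
  funext V hV
  exact h V hV

theorem naturality_apply (s : LHom M N U) {V W : X.Opens} (hV : V ≤ U) (hW : W ≤ U) (h : W ≤ V)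
    (x : Γ(M, V)) :
    s.app W hW (M.presheaf.map (homOfLE h).op x) = N.presheaf.map (homOfLE h).op (s.app V hV x) :=
  congr($(s.naturality V W hV hW h) x)

/-- Restriction to a smaller open. -/
def res (s : LHom M N U) (h : V ≤ U) : LHom M N V where
  app W hW := s.app W (hW.trans h)
  naturality W W' _ _ h' := s.naturality W W' _ _ h'
  map_smul W _ r x := s.map_smul W _ r x

@[simp] theorem res_app (s : LHom M N U) (h : V ≤ U) (W : X.Opens) (hW : W ≤ V) :
    (s.res h).app W hW = s.app W (hW.trans h) := rfl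

/-- Identity. -/
def id (M : X.Modules) (U : X.Opens) : LHom M M U where
  app V _ := 𝟙 _
  naturality _ _ _ _ _ := by simp
  map_smul _ _ _ _ := rfl

@[simp] theorem id_app (W : X.Opens) (hW : W ≤ U) : (LHom.id M U).app W hW = 𝟙 _ := rfl

/-- Composition. -/
def comp (s : LHom M N U) (t : LHom N K U) : LHom M K U where
  app V hV := s.app V hV ≫ t.app V hV
  naturality V W hV hW h := by
    rw [← Category.assoc, s.naturality V W hV hW h, Category.assoc, t.naturality V W hV hW h,
      Category.assoc]
  map_smul V hV r x := by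
    simp only [ConcreteCategory.comp_apply]
    rw [s.map_smul, t.map_smul]

@[simp] theorem comp_app (s : LHom M N U) (t : LHom N K U) (W : X.Opens) (hW : W ≤ U) :
    (s.comp t).app W hW = s.app W hW ≫ t.app W hW := rfl

@[simp] theorem id_comp (s : LHom M N U) : (LHom.id M U).comp s = s := by
  ext V hV; simp

@[simp] theorem comp_id (s : LHom M N U) : s.comp (LHom.id N U) = s := by
  ext V hV; simp

theorem comp_assoc {L : X.Modules} (s : LHom M N U) (t : LHom N K U) (r : LHom K L U) :
    (s.comp t).comp r = s.comp (t.comp r) := by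
  ext V hV; simp

@[simp] theorem res_comp (s : LHom M N U) (t : LHom N K U) (h : V ≤ U) :
    (s.comp t).res h = (s.res h).comp (t.res h) := rfl

@[simp] theorem res_id (h : V ≤ U) : (LHom.id M U).res h = LHom.id M V := rfl

@[simp] theorem res_res (s : LHom M N U) {W : X.Opens} (h : V ≤ U) (h' : W ≤ V) :
    (s.res h).res h' = s.res (h'.trans h) := rfl

@[simp] theorem res_self (s : LHom M N U) : s.res le_rfl = s := rfl

/-- A global morphism gives a local one over every open. -/
def ofHom (φ : M ⟶ N) (U : X.Opens) : LHom M N U where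
  app V _ := φ.app V
  naturality V W _ _ h := by
    have := φ.mapPresheaf.naturality (homOfLE h).op
    simpa using this
  map_smul V _ r x := φ.app_smul r x

@[simp] theorem ofHom_app (φ : M ⟶ N) (W : X.Opens) (hW : W ≤ U) :
    (ofHom φ U).app W hW = φ.app W := rfl

/-- Two sections of a sheaf of modules agreeing on a cover agree. -/
theorem sec_ext (N : X.Modules) {ι : Type*} (U : ι → X.Opens) (V : X.Opens) (hV : V ≤ ⨆ i, U i)
    (a b : Γ(N, V))
    (h : ∀ i, N.presheaf.map (homOfLE (inf_le_left : V ⊓ U i ≤ V)).op a =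
      N.presheaf.map (homOfLE (inf_le_left : V ⊓ U i ≤ V)).op b) : a = b :=
  TopCat.Sheaf.eq_of_locally_eq' (⟨N.presheaf, N.isSheaf⟩ : TopCat.Sheaf Ab X)
    (fun i => V ⊓ U i) V (fun i => homOfLE inf_le_left)
    (by rw [← inf_iSup_eq]; exact le_inf le_rfl hV) a b h

section glue

variable {ι : Type*} (U : ι → X.Opens) (s : ∀ i, LHom M N (U i))

/-- The local candidates for the glued map. -/
def glueLoc (V : X.Opens) (x : Γ(M, V)) (i : ι) : Γ(N, V ⊓ U i) :=
  (s i).app (V ⊓ U i) inf_le_right (M.presheaf.map (homOfLE inf_le_left).op x)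

variable (compat : ∀ i j, (s i).res (inf_le_left : U i ⊓ U j ≤ U i) = (s j).res inf_le_right)

include compat in
theorem app_eq_of_compat (i j : ι) (W : X.Opens) (hi : W ≤ U i) (hj : W ≤ U j) :
    (s i).app W hi = (s j).app W hj := by
  have := congrArg (fun t : LHom M N (U i ⊓ U j) => t.app W (le_inf hi hj)) (compat i j)
  simpa using this

include compat in
theorem glueLoc_compat (V : X.Opens) (x : Γ(M, V)) :
    TopCat.Presheaf.IsCompatible N.presheaf (fun i => V ⊓ U i) (glueLoc U s V x) := by
  intro i j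
  have hi : (V ⊓ U i) ⊓ (V ⊓ U j) ≤ U i := inf_le_left.trans inf_le_right
  have hj : (V ⊓ U i) ⊓ (V ⊓ U j) ≤ U j := inf_le_right.trans inf_le_right
  have e1 := (s i).naturality_apply (V := V ⊓ U i) (W := (V ⊓ U i) ⊓ (V ⊓ U j)) inf_le_right hi
    inf_le_left (M.presheaf.map (homOfLE inf_le_left).op x)
  have e2 := (s j).naturality_apply (V := V ⊓ U j) (W := (V ⊓ U i) ⊓ (V ⊓ U j)) inf_le_right hj
    inf_le_right (M.presheaf.map (homOfLE inf_le_left).op x)
  change N.presheaf.map (homOfLE _).op _ = N.presheaf.map (homOfLE _).op _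
  unfold glueLoc
  rw [← e1, ← e2, app_eq_of_compat U s compat i j _ hi hj]
  congr 1
  simp only [← ConcreteCategory.comp_apply, ← Functor.map_comp]
  rfl

include compat in
theorem exists_glue (V : X.Opens) (hV : V ≤ ⨆ i, U i) (x : Γ(M, V)) :
    ∃! y : Γ(N, V), ∀ i, N.presheaf.map (homOfLE (inf_le_left : V ⊓ U i ≤ V)).op y =
      glueLoc U s V x i :=
  TopCat.Sheaf.existsUnique_gluing' (⟨N.presheaf, N.isSheaf⟩ : TopCat.Sheaf Ab X)
    (fun i => V ⊓ U i) V (fun i => homOfLE inf_le_left)
    (by rw [← inf_iSup_eq]; exact le_inf le_rfl hV) (glueLoc U s V x)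
    (glueLoc_compat U s compat V x)

/-- The glued map on sections. -/
def glueFun (V : X.Opens) (hV : V ≤ ⨆ i, U i) (x : Γ(M, V)) : Γ(N, V) :=
  (exists_glue U s compat V hV x).choose

theorem glueFun_spec (V : X.Opens) (hV : V ≤ ⨆ i, U i) (x : Γ(M, V)) (i : ι) :
    N.presheaf.map (homOfLE (inf_le_left : V ⊓ U i ≤ V)).op (glueFun U s compat V hV x) =
      glueLoc U s V x i :=
  (exists_glue U s compat V hV x).choose_spec.1 i

theorem glueFun_add (V : X.Opens) (hV : V ≤ ⨆ i, U i) (x y : Γ(M, V)) :
    glueFun U s compat V hV (x + y) = glueFun U s compat V hV x + glueFun U s compat V hV y := by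
  apply sec_ext N U V hV
  intro i
  rw [map_add, glueFun_spec, glueFun_spec, glueFun_spec]
  simp [glueLoc]

theorem glueFun_natural (V W : X.Opens) (hV : V ≤ ⨆ i, U i) (hW : W ≤ ⨆ i, U i) (h : W ≤ V)
    (x : Γ(M, V)) :
    glueFun U s compat W hW (M.presheaf.map (homOfLE h).op x) =
      N.presheaf.map (homOfLE h).op (glueFun U s compat V hV x) := by
  apply sec_ext N U W hW
  intro i
  rw [glueFun_spec]
  have h1 : W ⊓ U i ≤ V ⊓ U i := inf_le_inf_right _ h
  have e1 := (s i).naturality_apply (V := V ⊓ U i) (W := W ⊓ U i) inf_le_right inf_le_right h1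
    (M.presheaf.map (homOfLE inf_le_left).op x)
  have e2 : N.presheaf.map (homOfLE (inf_le_left : W ⊓ U i ≤ W)).op
      (N.presheaf.map (homOfLE h).op (glueFun U s compat V hV x)) =
      N.presheaf.map (homOfLE h1).op (N.presheaf.map (homOfLE (inf_le_left : V ⊓ U i ≤ V)).op
        (glueFun U s compat V hV x)) := by
    simp only [← ConcreteCategory.comp_apply, ← Functor.map_comp]
    rfl
  rw [e2, glueFun_spec]
  unfold glueLoc
  rw [← e1]
  congr 1
  simp only [← ConcreteCategory.comp_apply, ← Functor.map_comp]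
  rfl

theorem glueFun_smul (V : X.Opens) (hV : V ≤ ⨆ i, U i) (r : Γ(X, V)) (x : Γ(M, V)) :
    glueFun U s compat V hV (r • x) = r • glueFun U s compat V hV x := by
  apply sec_ext N U V hV
  intro i
  rw [glueFun_spec, Scheme.Modules.map_smul, glueFun_spec]
  unfold glueLoc
  rw [Scheme.Modules.map_smul, (s i).map_smul]

/-- Gluing of local morphisms along a family of opens. -/
def glue : LHom M N (⨆ i, U i) where
  app V hV := AddCommGrpCat.ofHom
    (AddMonoidHom.mk' (glueFun U s compat V hV) (glueFun_add U s compat V hV))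
  naturality V W hV hW h := by
    ext x
    exact glueFun_natural U s compat V W hV hW h x
  map_smul V hV r x := glueFun_smul U s compat V hV r x

theorem glue_app_apply (V : X.Opens) (hV : V ≤ ⨆ i, U i) (x : Γ(M, V)) :
    (glue U s compat).app V hV x = glueFun U s compat V hV x := rfl

theorem glue_res (i : ι) : (glue U s compat).res (le_iSup U i) = s i := by
  ext V hV x
  rw [res_app, glue_app_apply]
  symm
  apply (exists_glue U s compat V (hV.trans (le_iSup U i)) x).unique _
    (glueFun_spec U s compat V _ x)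
  intro j
  have e1 := (s i).naturality_apply (V := V) (W := V ⊓ U j) hV (inf_le_left.trans hV) inf_le_left x
  rw [← e1]
  unfold glueLoc
  rw [app_eq_of_compat U s compat i j _ (inf_le_left.trans hV) inf_le_right]

end glue

/-- Local morphisms over `⨆ i, U i` are determined by their restrictions to the `U i`. -/
theorem ext_of_cover {ι : Type*} (U : ι → X.Opens) {t t' : LHom M N (⨆ i, U i)}
    (h : ∀ i, t.res (le_iSup U i) = t'.res (le_iSup U i)) : t = t' := by
  ext V hV x
  apply sec_ext N U V hV
  intro i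
  have e1 := t.naturality_apply (V := V) (W := V ⊓ U i) hV (inf_le_left.trans hV) inf_le_left x
  have e2 := t'.naturality_apply (V := V) (W := V ⊓ U i) hV (inf_le_left.trans hV) inf_le_left x
  rw [← e1, ← e2]
  have := congrArg (fun r : LHom M N (U i) => r.app (V ⊓ U i) inf_le_right) (h i)
  simp only [res_app] at this
  rw [this]

section global

/-- A local morphism over `⊤` is a morphism. -/
def toHom (s : LHom M N ⊤) : M ⟶ N :=
  ⟨PresheafOfModules.homMk (M₁ := M.val) (M₂ := N.val)
    { app := fun V => s.app V.unop le_top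
      naturality := fun V W f => s.naturality V.unop W.unop le_top le_top (leOfHom f.unop) }
    (fun V r m => s.map_smul V.unop le_top r m)⟩

@[simp] theorem toHom_app (s : LHom M N ⊤) (V : X.Opens) : (toHom s).app V = s.app V le_top := rfl

@[simp] theorem toHom_ofHom (φ : M ⟶ N) : toHom (ofHom φ ⊤) = φ := by
  ext V : 1
  rfl

@[simp] theorem ofHom_toHom (s : LHom M N ⊤) : ofHom (toHom s) ⊤ = s := by
  ext V hV : 2
  rfl

@[simp] theorem ofHom_id : ofHom (𝟙 M) U = LHom.id M U := rfl

@[simp] theorem ofHom_comp (φ : M ⟶ N) (ψ : N ⟶ K) :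
    ofHom (φ ≫ ψ) U = (ofHom φ U).comp (ofHom ψ U) := rfl

@[simp] theorem ofHom_res (φ : M ⟶ N) (h : V ≤ U) : (ofHom φ U).res h = ofHom φ V := rfl

theorem toHom_comp (s : LHom M N ⊤) (t : LHom N K ⊤) : toHom (s.comp t) = toHom s ≫ toHom t := by
  ext V : 1
  rfl

@[simp] theorem toHom_id : toHom (LHom.id M ⊤) = 𝟙 M := by
  ext V : 1
  rfl

/-- Morphisms are the same as local morphisms over `⊤`. -/
def equivHom : LHom M N ⊤ ≃ (M ⟶ N) where
  toFun := toHom
  invFun φ := ofHom φ ⊤
  left_inv := ofHom_toHom
  right_inv := toHom_ofHom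

/-- Morphisms agreeing on a cover agree. -/
theorem hom_ext_of_cover {ι : Type*} (U : ι → X.Opens) (hU : ⨆ i, U i = ⊤) {φ ψ : M ⟶ N}
    (h : ∀ i, ofHom φ (U i) = ofHom ψ (U i)) : φ = ψ := by
  have h2 : ofHom φ (⨆ i, U i) = ofHom ψ (⨆ i, U i) := ext_of_cover U (fun i => by simpa using h i)
  rw [← toHom_ofHom φ, ← toHom_ofHom ψ]
  congr 1
  rw [hU] at h2
  exact h2

end global

section restrict

variable {Y : Scheme.{u}} (f : Y ⟶ X) [IsOpenImmersion f]

/-- A local morphism over the range of an open immersion gives a morphism of restrictions. -/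
def toRestrict (s : LHom M N f.opensRange) : M.restrict f ⟶ N.restrict f :=
  ⟨PresheafOfModules.homMk (M₁ := (M.restrict f).val) (M₂ := (N.restrict f).val)
    { app := fun W => s.app (f ''ᵁ W.unop) (f.image_le_opensRange _)
      naturality := fun _ _ i => s.naturality _ _ _ _ (f.image_mono (leOfHom i.unop)) }
    (fun W r m => s.map_smul (f ''ᵁ W.unop) _ ((f.appIso W.unop).inv r) m)⟩

@[simp] theorem toRestrict_app (s : LHom M N f.opensRange) (W : Y.Opens) :
    (toRestrict f s).app W = s.app (f ''ᵁ W) (f.image_le_opensRange _) := rfl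

theorem image_preimage_of_le {V : X.Opens} (hV : V ≤ f.opensRange) : f ''ᵁ (f ⁻¹ᵁ V) = V := by
  rw [f.image_preimage_eq_opensRange_inf, inf_eq_right.mpr hV]

/-- The map on sections over `f ''ᵁ W` induced by a morphism of restrictions, typed in terms
of the sections of the original modules. -/
def restrApp (ψ : M.restrict f ⟶ N.restrict f) (W : Y.Opens) : Γ(M, f ''ᵁ W) ⟶ Γ(N, f ''ᵁ W) :=
  ψ.app W

theorem restrApp_natural (ψ : M.restrict f ⟶ N.restrict f) {W W' : Y.Opens} (i : W' ⟶ W) :
    M.presheaf.map (f.opensFunctor.map i).op ≫ restrApp f ψ W' =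
      restrApp f ψ W ≫ N.presheaf.map (f.opensFunctor.map i).op :=
  ψ.mapPresheaf.naturality i.op

theorem restrApp_smul (ψ : M.restrict f ⟶ N.restrict f) (W : Y.Opens) (r : Γ(X, f ''ᵁ W))
    (x : Γ(M, f ''ᵁ W)) : restrApp f ψ W (r • x) = r • restrApp f ψ W x := by
  have h := ψ.app_smul (U := W) ((f.appIso W).hom r) x
  have e : (f.appIso W).inv ((f.appIso W).hom r) = r := by simp
  have h1 : ((f.appIso W).hom r • (show Γ(M.restrict f, W) from x)) =
      (show Γ(M.restrict f, W) from ((f.appIso W).inv ((f.appIso W).hom r) • x)) := rfl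
  have h2 : ((f.appIso W).hom r • (ψ.app W x)) =
      (show Γ(N.restrict f, W) from ((f.appIso W).inv ((f.appIso W).hom r) • restrApp f ψ W x)) :=
    rfl
  rw [h1, h2, e] at h
  exact h

/-- The map on sections over `V ≤ f.opensRange` induced by a morphism of restrictions. -/
def ofRestrictApp (ψ : M.restrict f ⟶ N.restrict f) (V : X.Opens) (hV : V ≤ f.opensRange) :
    Γ(M, V) ⟶ Γ(N, V) :=
  M.presheaf.map (eqToHom (image_preimage_of_le f hV)).op ≫ restrApp f ψ (f ⁻¹ᵁ V) ≫
    N.presheaf.map (eqToHom (image_preimage_of_le f hV).symm).op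

theorem ofRestrictApp_natural (ψ : M.restrict f ⟶ N.restrict f) (V W : X.Opens)
    (hV : V ≤ f.opensRange) (hW : W ≤ f.opensRange) (h : W ≤ V) :
    M.presheaf.map (homOfLE h).op ≫ ofRestrictApp f ψ W hW =
      ofRestrictApp f ψ V hV ≫ N.presheaf.map (homOfLE h).op := by
  have i : f ⁻¹ᵁ W ⟶ f ⁻¹ᵁ V := homOfLE (fun x hx => h hx)
  have nat' := restrApp_natural f ψ i
  unfold ofRestrictApp
  have e1 : M.presheaf.map (homOfLE h).op ≫
      M.presheaf.map (eqToHom (image_preimage_of_le f hW)).op =
      M.presheaf.map (eqToHom (image_preimage_of_le f hV)).op ≫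
      M.presheaf.map (f.opensFunctor.map i).op := by
    rw [← Functor.map_comp, ← Functor.map_comp]
    rfl
  have e2 : N.presheaf.map (f.opensFunctor.map i).op ≫
      N.presheaf.map (eqToHom (image_preimage_of_le f hW).symm).op =
      N.presheaf.map (eqToHom (image_preimage_of_le f hV).symm).op ≫
      N.presheaf.map (homOfLE h).op := by
    rw [← Functor.map_comp, ← Functor.map_comp]
    rfl
  rw [← Category.assoc, e1, Category.assoc, ← Category.assoc (M.presheaf.map _) (restrApp f ψ _),
    nat', Category.assoc, Category.assoc, Category.assoc, e2]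

theorem ofRestrictApp_smul (ψ : M.restrict f ⟶ N.restrict f) (V : X.Opens)
    (hV : V ≤ f.opensRange) (r : Γ(X, V)) (x : Γ(M, V)) :
    ofRestrictApp f ψ V hV (r • x) = r • ofRestrictApp f ψ V hV x := by
  unfold ofRestrictApp
  simp only [ConcreteCategory.comp_apply]
  rw [Scheme.Modules.map_smul, restrApp_smul, Scheme.Modules.map_smul]
  congr 1
  rw [← ConcreteCategory.comp_apply, ← Functor.map_comp]
  have : (eqToHom (image_preimage_of_le f hV)).op ≫ (eqToHom (image_preimage_of_le f hV).symm).op
      = 𝟙 (op V) := rfl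
  rw [this]
  simp

/-- A morphism of restrictions along an open immersion gives a local morphism over its range. -/
def ofRestrict (ψ : M.restrict f ⟶ N.restrict f) : LHom M N f.opensRange where
  app V hV := ofRestrictApp f ψ V hV
  naturality V W hV hW h := ofRestrictApp_natural f ψ V W hV hW h
  map_smul V hV r x := ofRestrictApp_smul f ψ V hV r x

theorem ofRestrict_toRestrict (s : LHom M N f.opensRange) : ofRestrict f (toRestrict f s) = s := by
  apply LHom.ext
  intro V hV
  change M.presheaf.map (eqToHom (image_preimage_of_le f hV)).op ≫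
    s.app (f ''ᵁ (f ⁻¹ᵁ V)) (f.image_le_opensRange _) ≫
    N.presheaf.map (eqToHom (image_preimage_of_le f hV).symm).op = s.app V hV
  have nat := s.naturality V (f ''ᵁ (f ⁻¹ᵁ V)) hV (f.image_le_opensRange _)
    (image_preimage_of_le f hV).le
  have e1 : M.presheaf.map (eqToHom (image_preimage_of_le f hV)).op =
      M.presheaf.map (homOfLE (image_preimage_of_le f hV).le).op := rfl
  rw [e1, ← Category.assoc, nat, Category.assoc, ← Functor.map_comp]
  have : (homOfLE (image_preimage_of_le f hV).le).op ≫
      (eqToHom (image_preimage_of_le f hV).symm).op = 𝟙 (op V) := rfl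
  rw [this]
  simp

theorem toRestrict_ofRestrict (ψ : M.restrict f ⟶ N.restrict f) :
    toRestrict f (ofRestrict f ψ) = ψ := by
  ext W : 1
  change M.presheaf.map (eqToHom (image_preimage_of_le f (f.image_le_opensRange W))).op ≫
    restrApp f ψ (f ⁻¹ᵁ (f ''ᵁ W)) ≫
    N.presheaf.map (eqToHom (image_preimage_of_le f (f.image_le_opensRange W)).symm).op =
    restrApp f ψ W
  have i : f ⁻¹ᵁ (f ''ᵁ W) ⟶ W := eqToHom (f.preimage_image_eq W)
  have nat := restrApp_natural f ψ i
  have e1 : M.presheaf.map (eqToHom (image_preimage_of_le f (f.image_le_opensRange W))).op =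
      M.presheaf.map (f.opensFunctor.map i).op := rfl
  rw [e1, ← Category.assoc, nat, Category.assoc, ← Functor.map_comp]
  have : (f.opensFunctor.map i).op ≫
      (eqToHom (image_preimage_of_le f (f.image_le_opensRange W)).symm).op =
      𝟙 (op (f ''ᵁ W)) := rfl
  rw [this]
  simp

/-- Local morphisms over the range of an open immersion `f` are morphisms between restrictions
along `f`. -/
def equivRestrict : LHom M N f.opensRange ≃ (M.restrict f ⟶ N.restrict f) where
  toFun := toRestrict f
  invFun := ofRestrict f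
  left_inv := ofRestrict_toRestrict f
  right_inv := toRestrict_ofRestrict f

theorem toRestrict_id : toRestrict f (LHom.id M f.opensRange) = 𝟙 (M.restrict f) := by
  ext W : 1
  rfl

theorem toRestrict_comp (s : LHom M N f.opensRange) (t : LHom N K f.opensRange) :
    toRestrict f (s.comp t) = toRestrict f s ≫ toRestrict f t := by
  ext W : 1
  rfl

theorem ofRestrict_id : ofRestrict f (𝟙 (M.restrict f)) = LHom.id M f.opensRange := by
  rw [← toRestrict_id, ofRestrict_toRestrict]

theorem ofRestrict_comp (φ : M.restrict f ⟶ N.restrict f) (ψ : N.restrict f ⟶ K.restrict f) :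
    ofRestrict f (φ ≫ ψ) = (ofRestrict f φ).comp (ofRestrict f ψ) := by
  apply (equivRestrict f).injective
  change toRestrict f _ = toRestrict f _
  rw [toRestrict_comp, toRestrict_ofRestrict, toRestrict_ofRestrict, toRestrict_ofRestrict]

theorem toRestrict_ofHom (φ : M ⟶ N) :
    toRestrict f (ofHom φ f.opensRange) = (Scheme.Modules.restrictFunctor f).map φ := by
  ext W : 1
  rfl

end restrict

end LHom

end

end Fermat.Agent.S25.SLib
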